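import Fermat.Agent.LatticeFlat.Val
import Fermat.Agent.Minkowski.Inertia

/-!
# Roots of unity of order prime to `p` in a valuation subring of `ℚ̄` above `p`
-/

set_option autoImplicit false

open scoped Pointwise

namespace Fermat.Agent.LatticeFlat

open Fermat.Agent.FlatGS
open Fermat.Agent.Frob (Zbar mem_of_mem_Zbar toVal centre exists_fraction charP_of_prime_natCast_eq_zero)

variable {p : ℕ} {A : ValuationSubring Om}

lemma pow_eq_one_mem {n : ℕ} (hn : 0 < n) {ζ : Om} (hζ : ζ ^ n = 1) : ζ ∈ A := by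
  have h : IsIntegral ℤ ζ := by
    refine ⟨Polynomial.X ^ n - 1, Polynomial.monic_X_pow_sub_C 1 hn.ne', ?_⟩
    simp [hζ]
  exact mem_of_mem_Zbar A ⟨ζ, h⟩

/-- distinct roots of unity of order prime to `p` are distinct modulo the maximal ideal. -/
lemma inv_sub_mem_of_pow_eq_one (hA : A.LiesOverPrime p) {n : ℕ} (hn : 0 < n) (hnp : n.Coprime p)
    {ζ ω : Om} (hζ : ζ ^ n = 1) (hω : ω ^ n = 1) (hne : ω ≠ ζ) : (ζ - ω)⁻¹ ∈ A := by
  have hζ0 : ζ ≠ 0 := by
    rintro rfl
    rw [zero_pow hn.ne'] at hζ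
    exact zero_ne_one hζ
  set u := ω / ζ with hu
  have hu1 : u ≠ 1 := by
    intro h
    exact hne ((div_eq_one_iff_eq hζ0).mp h)
  have hun : u ^ n = 1 := by rw [hu, div_pow, hζ, hω, div_one]
  have huA : u ∈ A := pow_eq_one_mem hn hun
  have hgeom : ∑ i ∈ Finset.range n, u ^ i = 0 := by
    have h1 := mul_neg_geom_sum u n
    rw [hun, sub_self] at h1
    rcases mul_eq_zero.mp h1 with h2 | h2
    · exact absurd (sub_eq_zero.mp h2).symm hu1
    · exact h2
  -- `n = (1 - u) s`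
  let s : Om := ∑ i ∈ Finset.range n, ∑ j ∈ Finset.range i, u ^ j
  have hsA : s ∈ A := by
    refine Subring.sum_mem A.toSubring fun i _ => Subring.sum_mem A.toSubring fun j _ => ?_
    exact Subring.pow_mem A.toSubring huA j
  have hs : (1 - u) * s = n := by
    simp only [s, Finset.mul_sum]
    have h2 : ∀ i, ∑ j ∈ Finset.range i, (1 - u) * u ^ j = 1 - u ^ i := by
      intro i
      rw [← Finset.mul_sum]
      exact mul_neg_geom_sum u i
    simp only [h2, Finset.sum_sub_distrib, hgeom]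
    simp
  have hninv : ((n : Om))⁻¹ ∈ A := by
    have := inv_intCast_mem (n := (n : ℤ)) hA (Nat.isCoprime_iff_coprime.mpr hnp)
    simpa using this
  have hn0 : (n : Om) ≠ 0 := by exact_mod_cast hn.ne'
  have h1u : (1 - u) ≠ 0 := sub_ne_zero.mpr hu1.symm
  have h3 : (1 - u)⁻¹ = s * (n : Om)⁻¹ := by
    rw [← hs, mul_inv]
    have hs0 : s ≠ 0 := by
      rintro h0
      rw [h0, mul_zero] at hs
      exact hn0 hs.symm
    field_simp
  have h4 : (ζ - ω)⁻¹ = (1 - u)⁻¹ * ζ⁻¹ := by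
    rw [← mul_inv, hu]
    congr 1
    field_simp
  rw [h4, h3]
  refine A.mul_mem _ _ (A.mul_mem _ _ hsA hninv) ?_
  apply pow_eq_one_mem hn
  rw [inv_pow, hζ, inv_one]

/-- every element of `ℚ̄` multiplied by a high power of `p` is in `A`. -/
lemma exists_pow_mul_mem (hp : p.Prime) (hA : A.LiesOverPrime p) (x : Om) :
    ∃ N : ℕ, ∀ n, N ≤ n → (p : Om) ^ n * x ∈ A := by
  have hx : IsAlgebraic ℤ x := by
    have h1 : IsAlgebraic ℚ x := Algebra.IsAlgebraic.isAlgebraic x
    exact (IsFractionRing.isAlgebraic_iff ℤ ℚ Om).mpr h1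
  obtain ⟨y, hy0, hy⟩ := hx.exists_integral_multiple
  have hfin : FiniteMultiplicity (p : ℤ) y :=
    Int.finiteMultiplicity_iff.mpr ⟨by simpa using hp.ne_one, hy0⟩
  obtain ⟨m, hm, hpm⟩ := hfin.exists_eq_pow_mul_and_not_dvd
  set N := multiplicity (p : ℤ) y
  have hcop : IsCoprime m (p : ℤ) := by
    have := (Nat.prime_iff_prime_int.mp hp).coprime_iff_not_dvd.mpr hpm
    exact this.symm
  have hm0 : (m : Om) ≠ 0 := by
    rw [Int.cast_ne_zero]
    rintro rfl
    exact hpm (dvd_zero _)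
  refine ⟨N, fun n hn => ?_⟩
  have h1 : y • x ∈ A := mem_of_mem_Zbar A ⟨y • x, hy⟩
  have h2 : (p : Om) ^ n * x = (p : Om) ^ (n - N) * ((y • x) * (m : Om)⁻¹) := by
    rw [zsmul_eq_mul, hm]
    push_cast
    rw [← Nat.sub_add_cancel hn, pow_add]
    rw [Nat.add_sub_cancel]
    field_simp
  rw [h2]
  refine A.mul_mem _ _ (pow_mem (natCast_mem A p) _) (A.mul_mem _ _ h1 (inv_intCast_mem hA hcop))

lemma nonunits_mul_mem {x y : Om} (hx : x ∈ A.nonunits) (hy : y ∈ A) : x * y ∈ A.nonunits := by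
  obtain ⟨h1, h2⟩ := ValuationSubring.mem_nonunits_iff_exists_mem_maximalIdeal.mp hx
  rw [ValuationSubring.mem_nonunits_iff_exists_mem_maximalIdeal]
  refine ⟨A.mul_mem _ _ h1 hy, ?_⟩
  exact Ideal.mul_mem_right (⟨y, hy⟩ : A) _ h2

lemma mem_of_mem_nonunits {x : Om} (hx : x ∈ A.nonunits) : x ∈ A :=
  (ValuationSubring.mem_nonunits_iff_exists_mem_maximalIdeal.mp hx).1

lemma nonunits_add_mem {x y : Om} (hx : x ∈ A.nonunits) (hy : y ∈ A.nonunits) :
    x + y ∈ A.nonunits := by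
  obtain ⟨h1, h2⟩ := ValuationSubring.mem_nonunits_iff_exists_mem_maximalIdeal.mp hx
  obtain ⟨h1', h2'⟩ := ValuationSubring.mem_nonunits_iff_exists_mem_maximalIdeal.mp hy
  rw [ValuationSubring.mem_nonunits_iff_exists_mem_maximalIdeal]
  exact ⟨A.add_mem _ _ h1 h1', Ideal.add_mem _ h2 h2'⟩

lemma nonunits_neg_mem {x : Om} (hx : x ∈ A.nonunits) : -x ∈ A.nonunits := by
  obtain ⟨h1, h2⟩ := ValuationSubring.mem_nonunits_iff_exists_mem_maximalIdeal.mp hx
  rw [ValuationSubring.mem_nonunits_iff_exists_mem_maximalIdeal]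
  exact ⟨neg_mem h1, Ideal.neg_mem_iff _ |>.mpr h2⟩

lemma charP_residue (hp : p.Prime) (hA : A.LiesOverPrime p) :
    CharP (IsLocalRing.ResidueField A) p := by
  apply charP_of_prime_natCast_eq_zero hp
  obtain ⟨h1, h2⟩ := ValuationSubring.mem_nonunits_iff_exists_mem_maximalIdeal.mp
    (natCast_mem_nonunits hA)
  have h3 := (IsLocalRing.residue_eq_zero_iff (⟨(p : Om), h1⟩ : A)).mpr h2
  rw [← h3, ← map_natCast (IsLocalRing.residue A)]
  rfl

/-- the residue field is algebraic over the prime field -/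
lemma isIntegral_residue (hp : p.Prime) (hA : A.LiesOverPrime p)
    [Algebra (ZMod p) (IsLocalRing.ResidueField A)] (u : IsLocalRing.ResidueField A) :
    IsIntegral (ZMod p) u := by
  obtain ⟨⟨x, hx⟩, rfl⟩ := IsLocalRing.residue_surjective u
  obtain ⟨b, s, hs, h⟩ := exists_fraction hp hA hx
  have : Fact p.Prime := ⟨hp⟩
  have h1 : ∀ z : Zbar, IsIntegral (ZMod p) (IsLocalRing.residue A (toVal A z)) := by
    intro z
    obtain ⟨P, hPm, hP⟩ := z.2
    have hP' : Polynomial.eval₂ (Int.castRingHom Zbar) z P = 0 := by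
      apply Subtype.val_injective
      have h2 := Polynomial.hom_eval₂ P (Int.castRingHom Zbar) (Zbar.val : Zbar →+* Om) z
      have h3 : (Zbar.val : Zbar →+* Om).comp (Int.castRingHom Zbar) = algebraMap ℤ Om :=
        Subsingleton.elim _ _
      rw [h3] at h2
      exact h2.trans hP
    refine ⟨P.map (Int.castRingHom (ZMod p)), hPm.map _, ?_⟩
    rw [Polynomial.eval₂_map]
    have h4 := Polynomial.hom_eval₂ P (Int.castRingHom Zbar)
      ((IsLocalRing.residue A).comp (toVal A)) z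
    rw [hP', map_zero] at h4
    have h5 : (algebraMap (ZMod p) (IsLocalRing.ResidueField A)).comp (Int.castRingHom (ZMod p)) =
      ((IsLocalRing.residue A).comp (toVal A)).comp (Int.castRingHom Zbar) :=
        Subsingleton.elim _ _
    rw [h5]
    exact h4.symm
  have hsu : IsLocalRing.residue A (toVal A s) ≠ 0 := by
    rw [Ne, IsLocalRing.residue_eq_zero_iff]
    exact hs
  have h2 : IsLocalRing.residue A ⟨x, hx⟩ =
      IsLocalRing.residue A (toVal A b) * (IsLocalRing.residue A (toVal A s))⁻¹ := by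
    rw [eq_mul_inv_iff_mul_eq₀ hsu, ← map_mul]
    congr 1
    exact Subtype.ext h
  rw [h2]
  exact (h1 b).mul (h1 s).inv

/-- Nonzero residue classes are roots of unity of order prime to `p`. -/
lemma exists_residue_pow_eq_one (hp : p.Prime) (hA : A.LiesOverPrime p)
    {u : IsLocalRing.ResidueField A} (hu : u ≠ 0) : ∃ n, 0 < n ∧ n.Coprime p ∧ u ^ n = 1 := by
  have := charP_residue hp hA
  have : Fact p.Prime := ⟨hp⟩
  let _ : Algebra (ZMod p) (IsLocalRing.ResidueField A) := ZMod.algebra _ p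
  have h1 : IsIntegral (ZMod p) u := isIntegral_residue hp hA u
  let F := IntermediateField.adjoin (ZMod p) {u}
  have : FiniteDimensional (ZMod p) F := IntermediateField.adjoin.finiteDimensional h1
  have : Finite F := Module.finite_of_finite (ZMod p)
  cases nonempty_fintype F
  let u' : F := ⟨u, IntermediateField.mem_adjoin_simple_self _ _⟩
  have hu' : u' ≠ 0 := fun h => hu (congrArg Subtype.val h)
  have h2 := FiniteField.pow_card_sub_one_eq_one u' hu'
  have hcard : Fintype.card F = p ^ Module.finrank (ZMod p) F := by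
    rw [Module.card_eq_pow_finrank (K := ZMod p) (V := F), ZMod.card]
  have hpos : 0 < Module.finrank (ZMod p) F := Module.finrank_pos
  have h3 : 1 < Fintype.card F := Fintype.one_lt_card
  refine ⟨Fintype.card F - 1, by omega, ?_, congrArg Subtype.val h2⟩
  rw [hcard]
  have h4 : (p ^ Module.finrank (ZMod p) F - 1 + 1).Coprime (p ^ Module.finrank (ZMod p) F - 1) := by
    simp
  rw [Nat.sub_add_cancel (Nat.one_le_pow _ _ hp.pos)] at h4
  exact (Nat.Coprime.coprime_dvd_left (dvd_pow_self p hpos.ne') h4).symm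

/-- Each unit of `A` is congruent to a root of unity of order prime to `p`. -/
lemma exists_root_of_unity (hp : p.Prime) (hA : A.LiesOverPrime p) {x : Om} (hx : x ∈ A)
    (hxu : x ∉ A.nonunits) : ∃ (n : ℕ) (ζ : Om), 0 < n ∧ n.Coprime p ∧ ζ ^ n = 1 ∧
      x - ζ ∈ A.nonunits := by
  have hu : IsLocalRing.residue A ⟨x, hx⟩ ≠ 0 := by
    rw [Ne, IsLocalRing.residue_eq_zero_iff]
    intro h
    exact hxu (ValuationSubring.mem_nonunits_iff_exists_mem_maximalIdeal.mpr ⟨hx, h⟩)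
  obtain ⟨n, hn, hnp, hun⟩ := exists_residue_pow_eq_one hp hA hu
  have hn0 : (n : Om) ≠ 0 := by exact_mod_cast hn.ne'
  have : NeZero (n : Om) := ⟨hn0⟩
  have : NeZero n := ⟨hn.ne'⟩
  obtain ⟨ζ, hζ⟩ := HasEnoughRootsOfUnity.exists_primitiveRoot Om n
  have hprod := Polynomial.X_pow_sub_one_eq_prod hn hζ
  have h1 : x ^ n - 1 = ∏ ω ∈ Polynomial.nthRootsFinset n (1 : Om), (x - ω) := by
    have := congrArg (Polynomial.eval x) hprod
    rw [Polynomial.eval_prod] at this
    simpa using this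
  have hroot : ∀ ω ∈ Polynomial.nthRootsFinset n (1 : Om), ω ^ n = 1 := fun ω hω =>
    (Polynomial.mem_nthRootsFinset hn 1).mp hω
  have h2 : (⟨x, hx⟩ : A) ^ n - 1 ∈ IsLocalRing.maximalIdeal A := by
    rw [← IsLocalRing.residue_eq_zero_iff, map_sub, map_pow, hun, map_one, sub_self]
  have h3 : ∀ ω : Om, ω ∈ Polynomial.nthRootsFinset n (1 : Om) → ω ∈ A := fun ω hω =>
    pow_eq_one_mem hn (hroot ω hω)
  have h4 : (⟨x, hx⟩ : A) ^ n - 1 = ∏ ω ∈ (Polynomial.nthRootsFinset n (1 : Om)).attach,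
      ((⟨x, hx⟩ : A) - ⟨ω.1, h3 _ ω.2⟩) := by
    apply Subtype.ext
    have h5 : ((∏ ω ∈ (Polynomial.nthRootsFinset n (1 : Om)).attach,
      ((⟨x, hx⟩ : A) - ⟨ω.1, h3 _ ω.2⟩) : A) : Om) =
        ∏ ω ∈ (Polynomial.nthRootsFinset n (1 : Om)).attach, (x - ω.1) := by
      rw [SubmonoidClass.coe_finsetProd]
      rfl
    rw [h5, Finset.prod_attach (Polynomial.nthRootsFinset n (1 : Om)) (fun ω => x - ω), ← h1]
    rfl
  rw [h4, (IsLocalRing.maximalIdeal.isMaximal A).isPrime.prod_mem_iff] at h2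
  obtain ⟨ω, -, hω⟩ := h2
  refine ⟨n, ω.1, hn, hnp, hroot _ ω.2, ?_⟩
  exact ValuationSubring.mem_nonunits_iff_exists_mem_maximalIdeal.mpr
    ⟨A.toSubring.sub_mem hx (h3 _ ω.2), hω⟩

lemma mem_of_mem_decomposition {σ : GQ} (hσ : σ ∈ A.decompositionSubgroup ℚ) {x : Om}
    (hx : x ∈ A) : σ x ∈ A := by
  have h1 : σ • A = A := hσ
  have : σ • x ∈ σ • A := ValuationSubring.smul_mem_pointwise_smul _ _ _ hx
  rw [h1] at this
  exact this

lemma mem_nonunits_of_mem_decomposition {σ : GQ} (hσ : σ ∈ A.decompositionSubgroup ℚ) {x : Om}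
    (hx : x ∈ A.nonunits) : σ x ∈ A.nonunits := by
  obtain ⟨h1, h2⟩ := ValuationSubring.mem_nonunits_iff_exists_mem_maximalIdeal.mp hx
  rw [ValuationSubring.mem_nonunits_iff_exists_mem_maximalIdeal]
  refine ⟨mem_of_mem_decomposition hσ h1, fun hu => h2 ?_⟩
  obtain ⟨t, ht⟩ := hu.exists_right_inv
  have ht' : σ x * (t : Om) = 1 := congrArg (fun x : A => (x : Om)) ht
  have h3 : σ⁻¹ (t : Om) ∈ A := mem_of_mem_decomposition (Subgroup.inv_mem _ hσ) t.2
  refine IsUnit.of_mul_eq_one (⟨σ⁻¹ (t : Om), h3⟩ : A) (Subtype.ext ?_)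
  have h4 : σ⁻¹ (σ x * (t : Om)) = 1 := by rw [ht', map_one]
  rw [map_mul] at h4
  have h5 : σ⁻¹ (σ x) = x := AlgEquiv.symm_apply_apply σ x
  rw [h5] at h4
  exact h4

/-- An element of the decomposition group fixing all roots of unity of order prime to `p` is in the
inertia group. -/
lemma mem_inertia_of_fix (hp : p.Prime) (hA : A.LiesOverPrime p) {σ : GQ}
    (hσ : σ ∈ A.decompositionSubgroup ℚ)
    (h : ∀ (n : ℕ) (ζ : Om), 0 < n → n.Coprime p → ζ ^ n = 1 → σ ζ = ζ) :
    σ ∈ A.inertiaSubgroupIn ℚ := by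
  apply Fermat.Agent.Minkowski.mem_inertiaSubgroupIn_of_forall
  · intro x hx
    by_cases hxu : x ∈ A.nonunits
    · rw [sub_eq_add_neg]
      exact nonunits_add_mem (mem_nonunits_of_mem_decomposition hσ hxu) (nonunits_neg_mem hxu)
    · obtain ⟨n, ζ, hn, hnp, hζ, hxζ⟩ := exists_root_of_unity hp hA hx hxu
      have h1 : σ x - x = σ (x - ζ) + -(x - ζ) := by
        rw [map_sub, h n ζ hn hnp hζ]; ring
      rw [h1]
      exact nonunits_add_mem (mem_nonunits_of_mem_decomposition hσ hxζ) (nonunits_neg_mem hxζ)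
  · intro x hx
    exact mem_of_mem_decomposition (Subgroup.inv_mem _ hσ) hx

end Fermat.Agent.LatticeFlat
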