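import Fermat.Agent.LatticeFlat.Local

/-!
# Local-to-global, algebra version

A finite set `F` of inertia invariant functions `M → ℚ̄` separating the points, whose `A`-span
contains `1`, is stable under multiplication and under translations, shows that `M` is finite flat.
-/

set_option autoImplicit false

open scoped Pointwise

namespace Fermat.Agent.LatticeFlat

open Fermat.Agent.FlatGS

variable {p : ℕ} {A : ValuationSubring Om} {M : Type} {act : GQ → M → M}

/-- A separating algebra of functions on a finite set is everything. -/
lemma subalgebra_eq_top_of_sep {K : Type*} [Field K] [Finite M] (S : Subalgebra K (M → K))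
    (hsep : ∀ x y, (∀ c ∈ S, c x = c y) → x = y) : S = ⊤ := by
  classical
  cases nonempty_fintype M
  rw [eq_top_iff]
  intro f _
  have h1 : ∀ x : M, Pi.single x (1 : K) ∈ S := by
    intro x
    have h2 : ∀ y : M, y ≠ x → ∃ c ∈ S, c x = 1 ∧ c y = 0 := by
      intro y hy
      by_contra hcon
      push Not at hcon
      apply hy
      apply hsep
      intro c hc
      by_contra hne
      have hne' : c x - c y ≠ 0 := sub_ne_zero.mpr (Ne.symm hne)
      apply hcon ((c x - c y)⁻¹ • (c - algebraMap K (M → K) (c y)))
        (S.smul_mem (S.sub_mem hc (S.algebraMap_mem _)) _)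
      · simp [hne']
      · simp
    choose! c hcS hcx hcy using h2
    have h3 : Pi.single x (1 : K) = ∏ y ∈ Finset.univ.erase x, c y := by
      funext z
      rw [Finset.prod_apply]
      by_cases hz : z = x
      · subst hz
        rw [Pi.single_eq_same, Finset.prod_eq_one]
        intro y hy
        exact hcx y (Finset.mem_erase.mp hy).1
      · rw [Pi.single_eq_of_ne hz]
        exact (Finset.prod_eq_zero (i := z) (f := fun y => c y z)
          (Finset.mem_erase.mpr ⟨hz, Finset.mem_univ z⟩) (hcy z hz)).symm
    rw [h3]
    exact S.prod_mem fun y hy => hcS y (Finset.mem_erase.mp hy).1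
  have h4 : f = ∑ x, f x • Pi.single x (1 : K) := by
    funext z
    rw [Finset.sum_apply, Finset.sum_eq_single z]
    · simp
    · intro y _ hy
      rw [Pi.smul_apply, Pi.single_eq_of_ne (Ne.symm hy), smul_zero]
    · intro h; exact absurd (Finset.mem_univ z) h
  rw [h4]
  exact S.sum_mem fun x _ => S.smul_mem (h1 x) _

variable [AddCommGroup M]

/-- **Local-to-global**, algebra version. -/
theorem isFlatModule_of_local_algebra (hp : p.Prime) (hA : A.LiesOverPrime p) [Finite M]
    (h : GAct act) (hadd : ∀ σ x y, act σ (x + y) = act σ x + act σ y)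
    (F : Set (M → Om)) (hF : F.Finite)
    (hI : ∀ c ∈ F, ∀ σ ∈ A.inertiaSubgroupIn ℚ, ∀ x, c (act σ x) = σ (c x))
    (hone : 1 ∈ Submodule.span A F) (hmul : ∀ c ∈ F, ∀ d ∈ F, c * d ∈ Submodule.span A F)
    (hsep : ∀ x y, (∀ c ∈ F, c x = c y) → x = y)
    (htr : ∀ y, ∀ c ∈ F, (fun x => c (x + y)) ∈ Submodule.span A F) :
    IsFlatModule p act := by
  refine isFlatModule_of_local hp hA h hadd F hF
    (fun c hc σ hσ => (h.star_eq_iff σ c).mpr (hI c hc σ hσ)) ?_ htr
  have hle : ∀ c ∈ Submodule.span A F, c ∈ Submodule.span Om F := fun c hc =>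
    Submodule.span_le_restrictScalars A Om _ hc
  let S : Subalgebra Om (M → Om) := (Submodule.span Om F).toSubalgebra (hle _ hone) (by
    intro c d hc hd
    induction hc using Submodule.span_induction with
    | mem c hc =>
      induction hd using Submodule.span_induction with
      | mem d hd => exact hle _ (hmul c hc d hd)
      | zero => rw [mul_zero]; exact zero_mem _
      | add d e _ _ hd he => rw [mul_add]; exact add_mem hd he
      | smul a d _ hd => rw [mul_smul_comm]; exact Submodule.smul_mem _ _ hd
    | zero => rw [zero_mul]; exact zero_mem _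
    | add c e _ _ hc he => rw [add_mul]; exact add_mem hc he
    | smul a c _ hc => rw [smul_mul_assoc]; exact Submodule.smul_mem _ _ hc)
  have hS : S = ⊤ := subalgebra_eq_top_of_sep S fun x y hxy =>
    hsep x y fun c hc => hxy c (Submodule.subset_span hc)
  have h1 : ∀ c : M → Om, c ∈ S := fun c => by rw [hS]; trivial
  rw [eq_top_iff]
  exact fun c _ => h1 c

end Fermat.Agent.LatticeFlat
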