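import Fermat.Agent.LatticeFlat.Semilin
import Fermat.Agent.LatticeFlat.Roots

/-!
# A compactness argument

Functions invariant under the inertia group of `A` are invariant under the elements of the
decomposition group fixing the `n`-th roots of unity, for a suitable `n` prime to `p`.
-/

set_option autoImplicit false

open scoped Pointwise

namespace Fermat.Agent.LatticeFlat

open Fermat.Agent.FlatGS

section top

/-- discrete topology on `ℚ̄` (local use only) -/
local instance topOm : TopologicalSpace Om := ⊥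
local instance discOm : DiscreteTopology Om := ⟨rfl⟩

local instance contSMulOm : ContinuousSMul GQ Om := by
  rw [continuousSMul_iff_stabilizer_isOpen]
  intro x
  exact stabilizer_isOpen_of_isIntegral (K := ℚ) (L := AlgebraicClosure ℚ) x

lemma isClosed_apply_mem (x : Om) (S : Set Om) : IsClosed {σ : GQ | σ x ∈ S} := by
  have h : Continuous (fun σ : GQ => σ • x) := continuous_id.smul continuous_const
  exact (isClosed_discrete S).preimage h

lemma isClosed_inv_apply_mem (x : Om) (S : Set Om) : IsClosed {σ : GQ | σ⁻¹ x ∈ S} := by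
  have h : Continuous (fun σ : GQ => σ⁻¹ • x) := continuous_id.inv.smul continuous_const
  exact (isClosed_discrete S).preimage h

end top

variable {p : ℕ} {A : ValuationSubring Om}

lemma mem_decomposition_iff (σ : GQ) : σ ∈ A.decompositionSubgroup ℚ ↔
    (∀ x ∈ A, σ x ∈ A) ∧ (∀ x ∈ A, σ⁻¹ x ∈ A) := by
  constructor
  · intro h
    exact ⟨fun x hx => mem_of_mem_decomposition h hx,
      fun x hx => mem_of_mem_decomposition (Subgroup.inv_mem _ h) hx⟩
  · rintro ⟨h1, h2⟩
    rw [MulAction.mem_stabilizer_iff]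
    apply le_antisymm
    · intro y hy
      obtain ⟨x, hx, rfl⟩ := (ValuationSubring.mem_smul_pointwise_iff_exists σ y A).mp hy
      exact h1 x hx
    · intro y hy
      rw [ValuationSubring.mem_smul_pointwise_iff_exists]
      exact ⟨σ⁻¹ y, h2 y hy, AlgEquiv.apply_symm_apply σ y⟩

lemma isClosed_decomposition : IsClosed (A.decompositionSubgroup ℚ : Set GQ) := by
  have : (A.decompositionSubgroup ℚ : Set GQ) =
      (⋂ x ∈ A, {σ : GQ | σ x ∈ (A : Set Om)}) ∩ (⋂ x ∈ A, {σ : GQ | σ⁻¹ x ∈ (A : Set Om)}) := by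
    ext σ
    simp only [SetLike.mem_coe, mem_decomposition_iff, Set.mem_inter_iff, Set.mem_iInter,
      Set.mem_ofPred_eq]
  rw [this]
  refine IsClosed.inter ?_ ?_
  · exact isClosed_biInter fun x _ => isClosed_apply_mem x _
  · exact isClosed_biInter fun x _ => isClosed_inv_apply_mem x _

/-- elements of the decomposition group fixing the `n`-th roots of unity -/
def fixRoots (A : ValuationSubring Om) (n : ℕ) : Set GQ :=
  {σ | σ ∈ A.decompositionSubgroup ℚ ∧ ∀ ζ : Om, ζ ^ n = 1 → σ ζ = ζ}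

lemma isClosed_fixRoots (n : ℕ) : IsClosed (fixRoots A n) := by
  have : fixRoots A n = (A.decompositionSubgroup ℚ : Set GQ) ∩
      (⋂ (ζ : Om) (_ : ζ ^ n = 1), {σ : GQ | σ ζ ∈ ({ζ} : Set Om)}) := by
    ext σ
    simp only [fixRoots, Set.mem_ofPred_eq, Set.mem_inter_iff, SetLike.mem_coe, Set.mem_iInter,
      Set.mem_singleton_iff]
  rw [this]
  exact isClosed_decomposition.inter
    (isClosed_iInter fun ζ => isClosed_iInter fun _ => isClosed_apply_mem ζ _)

variable {M : Type} {act : GQ → M → M}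

/-- **Compactness**. -/
theorem exists_fixRoots (hp : p.Prime) (hA : A.LiesOverPrime p) [Finite M] (h : GAct act)
    (F : Set (M → Om)) (hF : F.Finite)
    (hI : ∀ c ∈ F, ∀ σ ∈ A.inertiaSubgroupIn ℚ, star act σ c = c) :
    ∃ n : ℕ, 0 < n ∧ n.Coprime p ∧ ∀ σ ∈ fixRoots A n, ∀ c ∈ F, star act σ c = c := by
  obtain ⟨E, hE, hE'⟩ := h.exists_field_fun F hF
  -- the stabiliser of `F`
  let U : Subgroup GQ :=
    { carrier := {σ | ∀ c ∈ F, star act σ c = c}
      mul_mem' := fun {a b} ha hb c hc => by rw [h.star_mul, hb c hc, ha c hc]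
      one_mem' := fun c _ => h.star_one c
      inv_mem' := fun {a} ha c hc => by
        have := ha c hc
        conv_lhs => rw [← this]
        rw [← h.star_mul, inv_mul_cancel, h.star_one] }
  have hU : IsOpen (U : Set GQ) := by
    apply Subgroup.isOpen_mono (H₁ := E.fixingSubgroup) (H₂ := U)
    · exact fun σ hσ => (hE' σ hσ).2
    · exact IntermediateField.fixingSubgroup_isOpen E
  let ι := {n : ℕ // 0 < n ∧ n.Coprime p}
  have hne : Nonempty ι := ⟨⟨1, one_pos, Nat.coprime_one_left p⟩⟩
  have hs : IsCompact ((U : Set GQ)ᶜ) := hU.isClosed_compl.isCompact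
  obtain ⟨⟨n, hn, hnp⟩, hn'⟩ := hs.elim_directed_family_closed (ι := ι)
    (fun n => fixRoots A n.1) (fun n => isClosed_fixRoots n.1) (by
      ext σ
      simp only [Set.mem_inter_iff, Set.mem_compl_iff, SetLike.mem_coe, Set.mem_iInter,
        Set.mem_empty_iff_false, iff_false, not_and]
      intro hσ hall
      apply hσ
      intro c hc
      apply hI c hc
      apply mem_inertia_of_fix hp hA (hall ⟨1, one_pos, Nat.coprime_one_left p⟩).1
      intro n ζ hn hnp hζ
      exact (hall ⟨n, hn, hnp⟩).2 ζ hζ) (by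
      rintro ⟨n, hn, hnp⟩ ⟨m, hm, hmp⟩
      refine ⟨⟨n * m, Nat.mul_pos hn hm, Nat.Coprime.mul_left hnp hmp⟩, ?_, ?_⟩
      · rintro σ ⟨h1, h2⟩
        refine ⟨h1, fun ζ hζ => h2 ζ ?_⟩
        change ζ ^ (n * m) = 1
        change ζ ^ n = 1 at hζ
        rw [pow_mul, hζ, one_pow]
      · rintro σ ⟨h1, h2⟩
        refine ⟨h1, fun ζ hζ => h2 ζ ?_⟩
        change ζ ^ (n * m) = 1
        change ζ ^ m = 1 at hζ
        rw [mul_comm, pow_mul, hζ, one_pow])
  refine ⟨n, hn, hnp, fun σ hσ => ?_⟩
  by_contra hcon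
  have : σ ∈ (U : Set GQ)ᶜ ∩ fixRoots A n := ⟨hcon, hσ⟩
  rw [hn'] at this
  exact this

end Fermat.Agent.LatticeFlat
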