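import Fermat.Agent.LatticeFlat.Roots
import Fermat.Agent.CFT.Bridge.Decomp

/-!
# `ℚ` is dense in the decomposition field of a place of `ℚ̄` above `p`
-/

set_option autoImplicit false

open scoped Pointwise NNReal

namespace Fermat.Agent.LatticeFlat

open Fermat.Agent.FlatGS
open Fermat.Agent.CFT.Bridge

variable {p : ℕ}

instance isGalois_padicAlgCl [Fact p.Prime] : IsGalois ℚ_[p] (PadicAlgCl p) :=
  IsAlgClosure.isGalois ℚ_[p] _

lemma exists_rat_padicPlace [hp : Fact p.Prime] {a : Om}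
    (ha : ∀ σ ∈ (padicPlace p).decompositionSubgroup ℚ, σ a = a) (n : ℕ) :
    ∃ r : ℚ, ∃ b ∈ padicPlace p, a - algebraMap ℚ Om r = (p : Om) ^ n * b := by
  have hfix : ∀ τ : PadicAlgCl p ≃ₐ[ℚ_[p]] PadicAlgCl p,
      τ (padicEmbedding p a) = padicEmbedding p a := by
    intro τ
    rw [← padicEmbedding_localGaloisToGlobal,
      ha _ (localGaloisToGlobal_mem_decompositionSubgroup p τ)]
  obtain ⟨y, hy⟩ := (InfiniteGalois.mem_range_algebraMap_iff_fixed (k := ℚ_[p])
    (padicEmbedding p a)).mpr hfix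
  have hp0 : (0 : ℝ) < (p : ℝ)⁻¹ ^ n := pow_pos (inv_pos.mpr (by exact_mod_cast hp.out.pos)) n
  obtain ⟨r, hr⟩ := Padic.rat_dense p y hp0
  have hpn : (p : Om) ^ n ≠ 0 := pow_ne_zero _ (by exact_mod_cast hp.out.ne_zero)
  refine ⟨r, (a - algebraMap ℚ Om r) / (p : Om) ^ n, ?_, by field_simp⟩
  rw [mem_padicPlace_iff_norm, map_div₀, map_sub, AlgHom.commutes, ← hy, map_pow, map_natCast,
    norm_div, norm_pow, norm_natCast_q]
  have h1 : ‖algebraMap ℚ_[p] (PadicAlgCl p) y - algebraMap ℚ (PadicAlgCl p) r‖ = ‖y - r‖ := by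
    have h2 : algebraMap ℚ (PadicAlgCl p) r = algebraMap ℚ_[p] (PadicAlgCl p) (r : ℚ_[p]) := by
      simp
    rw [h2, ← map_sub, norm_algebraMap']
  rw [h1, div_le_one hp0]
  exact hr.le

/-- **Density**: elements fixed by the decomposition group are `p`-adically approximated by
rational numbers. -/
theorem exists_rat_of_fixed (hp : p.Prime) {A : ValuationSubring Om} (hA : A.LiesOverPrime p)
    {a : Om} (ha : ∀ σ ∈ A.decompositionSubgroup ℚ, σ a = a) (n : ℕ) :
    ∃ r : ℚ, ∃ b ∈ A, a - algebraMap ℚ Om r = (p : Om) ^ n * b := by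
  have : Fact p.Prime := ⟨hp⟩
  obtain ⟨g, hg⟩ := exists_smul_padicPlace p hA
  have h1 : ∀ τ ∈ (padicPlace p).decompositionSubgroup ℚ, τ (g⁻¹ a) = g⁻¹ a := by
    intro τ hτ
    have h2 : τ • padicPlace p = padicPlace p := hτ
    have h3 : g * τ * g⁻¹ ∈ A.decompositionSubgroup ℚ := by
      rw [MulAction.mem_stabilizer_iff, ← hg, smul_smul, mul_assoc, mul_assoc, inv_mul_cancel,
        mul_one, ← smul_smul, h2]
    have h4 := ha _ h3
    have h5 : g (τ (g⁻¹ a)) = a := h4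
    have h6 : g⁻¹ (g (τ (g⁻¹ a))) = τ (g⁻¹ a) := AlgEquiv.symm_apply_apply g _
    rw [← h6, h5]
  obtain ⟨r, b, hb, hab⟩ := exists_rat_padicPlace h1 n
  refine ⟨r, g b, ?_, ?_⟩
  · rw [← hg]
    exact ValuationSubring.smul_mem_pointwise_smul g b _ hb
  · have h2 := congrArg g hab
    rw [map_sub, AlgEquiv.commutes, map_mul, map_pow, map_natCast] at h2
    have h3 : g (g⁻¹ a) = a := AlgEquiv.apply_symm_apply g a
    rw [h3] at h2
    exact h2

end Fermat.Agent.LatticeFlat
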