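import Fermat.Agent.LatticeFlat.Val

/-!
# Translation stable lattices give finite flat models

`M` is a finite abelian group with an action of `G_ℚ`. A finitely generated `ℤ_(p)`-module `Λ` of
equivariant functions `M → ℚ̄` which separates the points, and whose span over one valuation
subring `A` of `ℚ̄` above `p` is stable under translations, gives rise to a model of `M`:
the algebra generated by the matrix coefficients of the translations.
-/

set_option autoImplicit false

namespace Fermat.Agent.LatticeFlat

open Fermat.Agent.FlatGS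

variable {p : ℕ} {M : Type}

/-- A function with integral values on a finite set is integral. -/
lemma isIntegral_fun [Finite M] {f : M → Om} (h : ∀ m, IsIntegral (Rp p) (f m)) :
    IsIntegral (Rp p) f := by
  classical
  cases nonempty_fintype M
  choose P hPm hP using h
  refine ⟨∏ m, P m, Polynomial.monic_prod_of_monic _ _ fun m _ => hPm m, ?_⟩
  funext m
  have h1 : (Polynomial.aeval f (∏ m, P m)) m = Polynomial.aeval (f m) (∏ m, P m) := by
    have := Polynomial.aeval_algHom_apply (Pi.evalAlgHom (Rp p) (fun _ : M => Om) m) f (∏ m, P m)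
    exact this.symm
  change (Polynomial.aeval f (∏ m, P m)) m = 0
  rw [h1, map_prod]
  exact Finset.prod_eq_zero (Finset.mem_univ m) (hP m)

variable [AddCommGroup M] {act : GQ → M → M}

section

variable (Λ : Submodule (Rp p) (M → Om))

omit [AddCommGroup M] in
lemma act_injective_of_sep (heq : ∀ c ∈ Λ, Equivariant act c)
    (hsep : ∀ x y, (∀ c ∈ Λ, c x = c y) → x = y) (σ : GQ) : Function.Injective (act σ) := by
  intro x y hxy
  apply hsep
  intro c hc
  apply σ.injective
  rw [← heq c hc, ← heq c hc, hxy]

/-- **Lemma G**. -/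
theorem isFlatModule_of_lattice (hp : p.Prime) [Finite M]
    (hadd : ∀ σ x y, act σ (x + y) = act σ x + act σ y)
    (hfg : Λ.FG) (heq : ∀ c ∈ Λ, Equivariant act c)
    (hsep : ∀ x y, (∀ c ∈ Λ, c x = c y) → x = y)
    {A : ValuationSubring Om} (hA : A.LiesOverPrime p)
    (htr : ∀ y, ∀ c ∈ Λ, (fun x => c (x + y)) ∈ Submodule.span A (Λ : Set (M → Om))) :
    IsFlatModule p act := by
  classical
  have hact : ∀ σ, Function.Surjective (act σ) := fun σ =>
    Finite.surjective_of_injective (act_injective_of_sep Λ heq hsep σ)
  have hfin : Module.Finite (Rp p) Λ := Module.Finite.iff_fg.mpr hfg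
  let b := Module.Free.chooseBasis (Rp p) Λ
  let ι := Module.Free.ChooseBasisIndex (Rp p) Λ
  let e : ι → M → Om := fun i => (b i : M → Om)
  have heE : ∀ i, Equivariant act (e i) := fun i => heq _ (b i).2
  have hli : LinearIndependent Om e :=
    linearIndependent_of_equivariant_Rp (p := p) act hact e heE
      (b.linearIndependent.map' Λ.subtype (LinearMap.ker_eq_bot.mpr Subtype.val_injective))
  -- elements of `Λ` are combinations of the `e i`
  have hΛ : ∀ (c : M → Om) (hc : c ∈ Λ), c = ∑ i, b.repr ⟨c, hc⟩ i • e i := by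
    intro c hc
    have := b.sum_repr ⟨c, hc⟩
    have h2 : ((∑ i, b.repr ⟨c, hc⟩ i • b i : Λ) : M → Om) = c := congrArg Subtype.val this
    refine h2.symm.trans ?_
    rw [AddSubmonoidClass.coe_finsetSum]
    rfl
  have hspan : ∀ c ∈ Submodule.span A (Λ : Set (M → Om)), ∃ a : ι → Om, (∀ i, a i ∈ A) ∧
      c = ∑ i, a i • e i := by
    intro c hc
    induction hc using Submodule.span_induction with
    | mem c hc =>
      refine ⟨fun i => algebraMap ℚ Om (b.repr ⟨c, hc⟩ i : ℚ), fun i => ?_, ?_⟩
      · exact algebraMap_mem_of_mem_Rp hA (b.repr ⟨c, hc⟩ i).2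
      · conv_lhs => rw [hΛ c hc]
        refine Finset.sum_congr rfl fun i _ => ?_
        funext x
        exact (Algebra.smul_def _ _ : (b.repr ⟨c, hc⟩ i) • (e i x) = _)
    | zero => exact ⟨0, fun i => A.zero_mem, by simp⟩
    | add c d _ _ hc hd =>
      obtain ⟨u, hu, rfl⟩ := hc
      obtain ⟨v, hv, rfl⟩ := hd
      refine ⟨u + v, fun i => A.add_mem _ _ (hu i) (hv i), ?_⟩
      simp [add_smul, Finset.sum_add_distrib]
    | smul a c _ hc =>
      obtain ⟨u, hu, rfl⟩ := hc
      refine ⟨fun i => (a : Om) * u i, fun i => A.mul_mem _ _ a.2 (hu i), ?_⟩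
      rw [Finset.smul_sum]
      refine Finset.sum_congr rfl fun i _ => ?_
      rw [mul_smul]
      rfl
  have huniq : ∀ a a' : ι → Om, ∑ i, a i • e i = ∑ i, a' i • e i → a = a' := by
    intro a a' h
    have h1 : ∑ i, (a i - a' i) • e i = 0 := by
      simp only [sub_smul, Finset.sum_sub_distrib, h, sub_self]
    funext i
    exact sub_eq_zero.mp (Fintype.linearIndependent_iff.mp hli _ h1 i)
  choose h hmemA hh using fun (i : ι) (y : M) => hspan _ (htr y (e i) (b i).2)
  -- `h i y j`
  have hh' : ∀ i y x, e i (x + y) = ∑ j, h i y j * e j x := by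
    intro i y x
    have := congrFun (hh i y) x
    simpa using this
  let t : ι × ι → M → Om := fun ij y => h ij.1 y ij.2
  have htE : ∀ ij, Equivariant act (t ij) := by
    rintro ⟨i, j⟩ σ y
    have h1 : ∑ j, h i (act σ y) j • e j = ∑ j, σ (h i y j) • e j := by
      funext x
      obtain ⟨x', rfl⟩ := hact σ x
      have h2 : e i (act σ x' + act σ y) = σ (e i (x' + y)) := by
        rw [← hadd, heE]
      rw [hh', hh', map_sum] at h2
      simp only [Finset.sum_apply, Pi.smul_apply, smul_eq_mul]
      rw [h2]
      refine Finset.sum_congr rfl fun j _ => ?_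
      rw [map_mul, heE]
    exact congrFun (huniq _ _ h1) j
  have htA : ∀ ij y, t ij y ∈ A := fun ij y => hmemA _ _ _
  have htI : ∀ ij, IsIntegral (Rp p) (t ij) := by
    intro ij
    apply isIntegral_fun
    intro m
    apply isIntegral_of_forall_mem hp hA
    intro σ
    rw [← htE]
    exact htA _ _
  -- the model
  let B : Subalgebra (Rp p) (M → Om) := Algebra.adjoin (Rp p) (Set.range t)
  have htB : ∀ ij, t ij ∈ B := fun ij => Algebra.subset_adjoin ⟨ij, rfl⟩
  have hB : IsModel p act B := by
    refine ⟨?_, ?_, ?_, ?_⟩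
    · exact Algebra.finite_adjoin_of_finite_of_isIntegral (Set.finite_range t) (by
        rintro _ ⟨ij, rfl⟩; exact htI ij)
    · intro c hc
      induction hc using Algebra.adjoin_induction with
      | mem c hc => obtain ⟨ij, rfl⟩ := hc; exact htE ij
      | algebraMap r =>
        intro σ x
        change algebraMap (Rp p) Om r = σ (algebraMap (Rp p) Om r)
        rw [Rp_algebraMap_Om]
        exact (σ.commutes _).symm
      | add c d _ _ hc hd =>
        intro σ x
        rw [Pi.add_apply, Pi.add_apply, hc, hd, map_add]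
      | mul c d _ _ hc hd =>
        intro σ x
        rw [Pi.mul_apply, Pi.mul_apply, hc, hd, map_mul]
    · intro m m' hmm
      apply hsep
      have h1 : ∀ i, e i m = e i m' := by
        intro i
        have h2 := hh' i m 0
        have h3 := hh' i m' 0
        rw [zero_add] at h2 h3
        rw [h2, h3]
        refine Finset.sum_congr rfl fun j _ => ?_
        rw [show h i m j = h i m' j from hmm _ (htB (i, j))]
      intro c hc
      rw [hΛ c hc]
      simp only [Finset.sum_apply, Pi.smul_apply]
      exact Finset.sum_congr rfl fun i _ => by rw [h1]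
    · rw [AlgHom.map_adjoin, Algebra.adjoin_le_iff]
      rintro _ ⟨_, ⟨⟨i, j⟩, rfl⟩, rfl⟩
      have key : pull p (fun x : M × M => x.1 + x.2) (t (i, j)) =
          ∑ k, pull p (Prod.snd : M × M → M) (t (i, k)) *
            pull p (Prod.fst : M × M → M) (t (k, j)) := by
        funext ⟨a, c⟩
        simp only [pull_apply, Finset.sum_apply, Pi.mul_apply, t]
        have h1 : ∑ j, h i (a + c) j • e j = ∑ j, (∑ k, h i c k * h k a j) • e j := by
          funext x
          have h2 : e i (x + (a + c)) = ∑ k, h i c k * e k (x + a) := by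
            rw [← add_assoc, hh']
          rw [hh'] at h2
          simp only [Finset.sum_apply, Pi.smul_apply, smul_eq_mul]
          rw [h2]
          simp only [hh', Finset.mul_sum, Finset.sum_mul]
          rw [Finset.sum_comm]
          refine Finset.sum_congr rfl fun j _ => Finset.sum_congr rfl fun k _ => by ring
        exact congrFun (huniq _ _ h1) j
      rw [SetLike.mem_coe, key]
      refine Subalgebra.sum_mem _ fun k _ => Subalgebra.mul_mem _ ?_ ?_
      · exact (le_sup_right : _ ≤ B.map (pull p (Prod.fst : M × M → M)) ⊔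
          B.map (pull p (Prod.snd : M × M → M))) ⟨_, htB _, rfl⟩
      · exact (le_sup_left : _ ≤ B.map (pull p (Prod.fst : M × M → M)) ⊔
          B.map (pull p (Prod.snd : M × M → M))) ⟨_, htB _, rfl⟩
  exact hB.isFlatModule

end

end Fermat.Agent.LatticeFlat
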