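import Fermat.Agent.LatticeFlat.Global

/-!
# The semilinear action of `G_ℚ` on functions `M → ℚ̄`, and Galois descent by interpolation
-/

set_option autoImplicit false

namespace Fermat.Agent.LatticeFlat

open Fermat.Agent.FlatGS

variable {M : Type}

/-- A (set theoretic) action of `G_ℚ` with open stabilisers. -/
structure GAct (act : GQ → M → M) : Prop where
  one : ∀ x, act 1 x = x
  mul : ∀ σ τ x, act (σ * τ) x = act σ (act τ x)
  exists_field : ∀ x, ∃ E : IntermediateField ℚ Om, FiniteDimensional ℚ E ∧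
    ∀ σ ∈ E.fixingSubgroup, act σ x = x

/-- The semilinear action on functions. -/
noncomputable def star (act : GQ → M → M) (σ : GQ) (c : M → Om) : M → Om := fun x => σ (c (act σ⁻¹ x))

section

variable {act : GQ → M → M}

lemma star_apply (σ : GQ) (c : M → Om) (x : M) : star act σ c x = σ (c (act σ⁻¹ x)) := rfl

@[simp] lemma star_add (σ : GQ) (c d : M → Om) :
    star act σ (c + d) = star act σ c + star act σ d := by
  funext x; simp [star]

@[simp] lemma star_smul (σ : GQ) (a : Om) (c : M → Om) :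
    star act σ (a • c) = σ a • star act σ c := by
  funext x; simp [star]

@[simp] lemma star_zero (σ : GQ) : star act σ (0 : M → Om) = 0 := by
  funext x; simp [star]

lemma star_sum {ι : Type*} (σ : GQ) (s : Finset ι) (c : ι → M → Om) :
    star act σ (∑ i ∈ s, c i) = ∑ i ∈ s, star act σ (c i) := by
  funext x; simp [star]

namespace GAct

variable (h : GAct act)
include h

lemma inv_act (σ : GQ) (x : M) : act σ⁻¹ (act σ x) = x := by
  rw [← h.mul, inv_mul_cancel, h.one]

lemma act_inv (σ : GQ) (x : M) : act σ (act σ⁻¹ x) = x := by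
  rw [← h.mul, mul_inv_cancel, h.one]

lemma act_bijective (σ : GQ) : Function.Bijective (act σ) :=
  ⟨Function.LeftInverse.injective (h.inv_act σ), Function.RightInverse.surjective (h.act_inv σ)⟩

lemma star_one (c : M → Om) : star act 1 c = c := by
  funext x
  rw [star_apply, inv_one, h.one]; rfl

lemma star_mul (σ τ : GQ) (c : M → Om) : star act (σ * τ) c = star act σ (star act τ c) := by
  funext x
  rw [star_apply, star_apply, star_apply, mul_inv_rev, h.mul]; rfl

lemma star_eq_iff (σ : GQ) (c : M → Om) : star act σ c = c ↔ ∀ x, c (act σ x) = σ (c x) := by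
  constructor
  · intro hc x
    have := congrFun hc (act σ x)
    rw [star_apply, h.inv_act] at this
    exact this.symm
  · intro hc
    funext x
    rw [star_apply, ← hc, h.act_inv]

lemma equivariant_iff (c : M → Om) : Equivariant act c ↔ ∀ σ, star act σ c = c := by
  constructor
  · intro hc σ
    exact (h.star_eq_iff σ c).mpr (hc σ)
  · intro hc σ
    exact (h.star_eq_iff σ c).mp (hc σ)

end GAct

/-- the orbit of an algebraic number under a group is finite -/
lemma orbit_finite (G : Subgroup GQ) (θ : Om) : {ω : Om | ∃ σ ∈ G, σ θ = ω}.Finite := by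
  have hxi : IsIntegral ℚ θ := Algebra.IsIntegral.isIntegral θ
  apply Set.Finite.subset ((minpoly ℚ θ).rootSet Om).toFinite
  rintro _ ⟨σ, -, rfl⟩
  rw [Polynomial.mem_rootSet]
  refine ⟨minpoly.ne_zero hxi, ?_⟩
  have := Polynomial.aeval_algHom_apply (σ : Om →ₐ[ℚ] Om) θ (minpoly ℚ θ)
  rw [minpoly.aeval, map_zero] at this
  exact this

/-- Galois descent by Lagrange interpolation on the orbit of `θ`. -/
theorem interp (h : GAct act) {S : Type*} [CommRing S] [Algebra S Om] (G : Subgroup GQ) (θ : Om)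
    (c : M → Om) (hstab : ∀ σ ∈ G, σ θ = θ → star act σ c = c)
    (h1 : ∀ σ ∈ G, σ θ ∈ (algebraMap S Om).range)
    (h2 : ∀ σ ∈ G, σ θ ≠ θ → (θ - σ θ)⁻¹ ∈ (algebraMap S Om).range)
    (L : Submodule S (M → Om)) (hL : ∀ σ ∈ G, star act σ c ∈ L) :
    c ∈ Submodule.span S {d | d ∈ L ∧ ∀ τ ∈ G, star act τ d = d} := by
  classical
  let O : Finset Om := (orbit_finite G θ).toFinset
  have hO : ∀ ω, ω ∈ O ↔ ∃ σ ∈ G, σ θ = ω := fun ω => by simp [O]
  have hθ : θ ∈ O := (hO θ).mpr ⟨1, G.one_mem, rfl⟩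
  choose! δ hδG hδ using fun ω (hω : ω ∈ O) => (hO ω).mp hω
  -- independence of the choice
  have hind : ∀ σ ∈ G, star act σ c = star act (δ (σ θ)) c := by
    intro σ hσ
    have hm : σ θ ∈ O := (hO _).mpr ⟨σ, hσ, rfl⟩
    have h3 : (δ (σ θ))⁻¹ * σ ∈ G := G.mul_mem (G.inv_mem (hδG _ hm)) hσ
    have h4 : ((δ (σ θ))⁻¹ * σ) θ = θ := by
      change (δ (σ θ))⁻¹ (σ θ) = θ
      conv_lhs => rw [← hδ _ hm]
      rw [hδ _ hm]
      conv_lhs => arg 2; rw [← hδ _ hm]
      exact AlgEquiv.symm_apply_apply (δ (σ θ)) θ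
    have h5 := hstab _ h3 h4
    have h6 : star act σ c = star act (δ (σ θ)) (star act ((δ (σ θ))⁻¹ * σ) c) := by
      rw [← h.star_mul]; congr 1; group
    rw [h6, h5]
  let d : ℕ → M → Om := fun j => ∑ ω ∈ O, ω ^ j • star act (δ ω) c
  have hdL : ∀ j, d j ∈ L := by
    intro j
    refine Submodule.sum_mem _ fun ω hω => ?_
    obtain ⟨s, hs⟩ := h1 _ (hδG ω hω)
    rw [hδ ω hω] at hs
    have : ω ^ j • star act (δ ω) c = (s ^ j) • star act (δ ω) c := by
      rw [← algebraMap_smul Om (s ^ j), map_pow, hs]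
    rw [this]
    exact L.smul_mem _ (hL _ (hδG ω hω))
  have hdinv : ∀ j, ∀ τ ∈ G, star act τ (d j) = d j := by
    intro j τ hτ
    simp only [d, star_sum, star_smul, map_pow]
    refine Finset.sum_nbij (fun ω => τ ω) ?_ ?_ ?_ ?_
    · intro ω hω
      obtain ⟨σ, hσ, rfl⟩ := (hO ω).mp hω
      exact (hO _).mpr ⟨τ * σ, G.mul_mem hτ hσ, rfl⟩
    · intro a _ b _ hab
      exact τ.injective hab
    · intro ω hω
      obtain ⟨σ, hσ, rfl⟩ := (hO ω).mp hω
      refine ⟨τ⁻¹ (σ θ), (hO _).mpr ⟨τ⁻¹ * σ, G.mul_mem (G.inv_mem hτ) hσ, rfl⟩, ?_⟩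
      exact AlgEquiv.apply_symm_apply τ (σ θ)
    · intro ω hω
      congr 1
      rw [← h.star_mul, hind _ (G.mul_mem hτ (hδG ω hω))]
      congr 2
      change τ (δ ω θ) = _
      rw [hδ ω hω]
  -- interpolation polynomial
  let P : Polynomial Om := ∏ ω ∈ O.erase θ, (Polynomial.C ((θ - ω)⁻¹) * (Polynomial.X - Polynomial.C ω))
  have hPθ : P.eval θ = 1 := by
    rw [Polynomial.eval_prod]
    refine Finset.prod_eq_one fun ω hω => ?_
    have : θ - ω ≠ 0 := sub_ne_zero.mpr (Finset.mem_erase.mp hω).1.symm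
    simp [this]
  have hPω : ∀ ω ∈ O, ω ≠ θ → P.eval ω = 0 := by
    intro ω hω hne
    rw [Polynomial.eval_prod]
    exact Finset.prod_eq_zero (Finset.mem_erase.mpr ⟨hne, hω⟩) (by simp)
  have hPS : P ∈ Polynomial.lifts (algebraMap S Om) := by
    apply Subsemiring.prod_mem
    intro ω hω
    obtain ⟨hne, hωO⟩ := Finset.mem_erase.mp hω
    obtain ⟨σ, hσ, rfl⟩ := (hO ω).mp hωO
    obtain ⟨a, ha⟩ := h1 σ hσ
    obtain ⟨b, hb⟩ := h2 σ hσ hne
    refine ⟨Polynomial.C b * (Polynomial.X - Polynomial.C a), ?_⟩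
    simp [ha, hb]
  have hc : c = ∑ j ∈ Finset.range (P.natDegree + 1), P.coeff j • d j := by
    have h3 : ∀ ω, ∑ j ∈ Finset.range (P.natDegree + 1), P.coeff j * ω ^ j = P.eval ω := fun ω =>
      (Polynomial.eval_eq_sum_range ω).symm
    simp only [d, Finset.smul_sum, smul_smul]
    rw [Finset.sum_comm]
    simp only [← Finset.sum_smul, h3]
    rw [Finset.sum_eq_single θ]
    · rw [hPθ, one_smul]
      have := hind 1 G.one_mem
      rw [h.star_one] at this
      exact this
    · intro ω hω hne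
      rw [hPω ω hω hne, zero_smul]
    · intro h'; exact absurd hθ h'
  rw [hc]
  refine Submodule.sum_mem _ fun j _ => ?_
  rw [Polynomial.lifts_iff_coeff_lifts] at hPS
  obtain ⟨s, hs⟩ := hPS j
  have : P.coeff j • d j = s • d j := by
    rw [← algebraMap_smul Om s, hs]
  rw [this]
  exact Submodule.smul_mem _ _ (Submodule.subset_span ⟨hdL j, hdinv j⟩)

/-- an upper bound for finitely many open stabilisers -/
lemma GAct.exists_field_all [Finite M] (h : GAct act) : ∃ E : IntermediateField ℚ Om,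
    FiniteDimensional ℚ E ∧ ∀ σ ∈ E.fixingSubgroup, ∀ x, act σ x = x := by
  classical
  cases nonempty_fintype M
  choose E hE hE' using h.exists_field
  refine ⟨⨆ x, E x, IntermediateField.finiteDimensional_iSup_of_finite, fun σ hσ x => ?_⟩
  apply hE' x σ
  rw [IntermediateField.mem_fixingSubgroup_iff] at hσ ⊢
  exact fun y hy => hσ y ((le_iSup E x) hy)

/-- Finitely many functions on a finite set have open stabilisers. -/
lemma GAct.exists_field_fun [Finite M] (h : GAct act) (F : Set (M → Om)) (hF : F.Finite) :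
    ∃ E : IntermediateField ℚ Om, FiniteDimensional ℚ E ∧
      ∀ σ ∈ E.fixingSubgroup, (∀ x, act σ x = x) ∧ ∀ c ∈ F, star act σ c = c := by
  classical
  obtain ⟨E, hE, hE'⟩ := h.exists_field_all
  have hV : {a : Om | ∃ c ∈ F, ∃ x, c x = a}.Finite := by
    have : {a : Om | ∃ c ∈ F, ∃ x, c x = a} = ⋃ c ∈ F, Set.range c := by
      ext a; simp
    rw [this]
    exact hF.biUnion fun c _ => Set.finite_range c
  have hfd : FiniteDimensional ℚ (IntermediateField.adjoin ℚ {a : Om | ∃ c ∈ F, ∃ x, c x = a}) := by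
    have := hV.to_subtype
    exact IntermediateField.finiteDimensional_adjoin fun x _ => Algebra.IsIntegral.isIntegral x
  refine ⟨E ⊔ IntermediateField.adjoin ℚ {a : Om | ∃ c ∈ F, ∃ x, c x = a},
    IntermediateField.finiteDimensional_sup _ _, fun σ hσ => ?_⟩
  rw [IntermediateField.mem_fixingSubgroup_iff] at hσ
  have h1 : σ ∈ E.fixingSubgroup := by
    rw [IntermediateField.mem_fixingSubgroup_iff]
    exact fun y hy => hσ y ((le_sup_left : E ≤ _) hy)
  refine ⟨hE' σ h1, fun c hc => ?_⟩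
  rw [h.star_eq_iff]
  intro x
  rw [hE' σ h1]
  exact (hσ _ ((le_sup_right : IntermediateField.adjoin ℚ {a : Om | ∃ c ∈ F, ∃ x, c x = a} ≤ _)
    (IntermediateField.subset_adjoin _ _ ⟨c, hc, x, rfl⟩))).symm

/-- The equivariant functions span. -/
theorem GAct.span_equivariant [Finite M] (h : GAct act) :
    Submodule.span Om {c : M → Om | Equivariant act c} = ⊤ := by
  rw [eq_top_iff]
  intro c _
  obtain ⟨E, hE, hE'⟩ := h.exists_field_fun {c} (Set.finite_singleton c)
  obtain ⟨θ, hθ⟩ := Field.exists_primitive_element ℚ E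
  have h1 := interp h (S := Om) ⊤ (θ : Om) c (fun σ _ hσ => by
    refine (hE' σ ?_).2 c rfl
    rw [IntermediateField.mem_fixingSubgroup_iff]
    intro y hy
    have h2 : (⟨y, hy⟩ : E) ∈ IntermediateField.adjoin ℚ {θ} := by rw [hθ]; trivial
    obtain ⟨r, s, hrs⟩ := (IntermediateField.mem_adjoin_simple_iff ℚ _).mp h2
    have h3 : ∀ q : Polynomial ℚ, ((Polynomial.aeval θ q : E) : Om) =
        Polynomial.aeval (θ : Om) q := fun q =>
      (Polynomial.aeval_algHom_apply E.val θ q).symm
    have h4 : ∀ q : Polynomial ℚ, σ (Polynomial.aeval (θ : Om) q) =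
        Polynomial.aeval (θ : Om) q := fun q => by
      have := Polynomial.aeval_algHom_apply (σ : Om →ₐ[ℚ] Om) (θ : Om) q
      change Polynomial.aeval (σ (θ : Om)) q = σ (Polynomial.aeval (θ : Om) q) at this
      rw [← this, hσ]
    have h5 : y = Polynomial.aeval (θ : Om) r / Polynomial.aeval (θ : Om) s := by
      have := congrArg (fun z : E => (z : Om)) hrs
      rw [← h3, ← h3]
      exact this
    rw [h5, map_div₀, h4, h4]) (fun σ _ => ⟨_, rfl⟩) (fun σ _ _ => ⟨_, rfl⟩) ⊤ (fun _ _ => trivial)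
  refine Submodule.span_mono ?_ h1
  rintro d ⟨-, hd⟩
  exact (h.equivariant_iff d).mpr fun σ => hd σ trivial

end

end Fermat.Agent.LatticeFlat
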