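import Fermat.Agent.FlatGS.Hopf
import Mathlib.FieldTheory.Minpoly.IsConjRoot

/-!
# Facts on a valuation subring of `ℚ̄` above `p`
-/

set_option autoImplicit false

namespace Fermat.Agent.LatticeFlat

open Fermat.Agent.FlatGS

variable {p : ℕ} {A : ValuationSubring Om}

lemma natCast_mem_nonunits (hA : A.LiesOverPrime p) : (p : Om) ∈ A.nonunits := hA

/-- integers prime to `p` are units of `A` -/
lemma inv_intCast_mem (hA : A.LiesOverPrime p) {n : ℤ} (hn : IsCoprime n (p : ℤ)) :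
    ((n : Om))⁻¹ ∈ A := by
  obtain ⟨a, b, hab⟩ := hn
  have h1 : (a : Om) * n + b * p = 1 := by exact_mod_cast congrArg (Int.cast : ℤ → Om) hab
  have hpA : (p : Om) ∈ A := natCast_mem A p
  rcases ValuationSubring.mem_or_inv_mem A (n : Om) with h | h
  swap
  · exact h
  by_contra hne
  -- then `n` is a nonunit
  have hn' : (n : Om) ∈ A.nonunits := by
    rw [ValuationSubring.mem_nonunits_iff_exists_mem_maximalIdeal]
    refine ⟨h, fun hu => hne ?_⟩
    obtain ⟨t, ht⟩ := hu.exists_right_inv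
    have ht' : (n : Om) * (t : Om) = 1 := congrArg (fun x : A => (x : Om)) ht
    rw [← eq_inv_of_mul_eq_one_right ht']
    exact t.2
  obtain ⟨_, h3⟩ := ValuationSubring.mem_nonunits_iff_exists_mem_maximalIdeal.mp hn'
  obtain ⟨_, h4⟩ := ValuationSubring.mem_nonunits_iff_exists_mem_maximalIdeal.mp
    (natCast_mem_nonunits hA)
  have h5 : (1 : A) ∈ IsLocalRing.maximalIdeal A := by
    have : (1 : A) = (⟨(a : Om), intCast_mem A a⟩ : A) * ⟨(n : Om), h⟩ +
        (⟨(b : Om), intCast_mem A b⟩ : A) * ⟨(p : Om), hpA⟩ := Subtype.ext h1.symm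
    rw [this]
    exact Ideal.add_mem _ (Ideal.mul_mem_left _ _ h3) (Ideal.mul_mem_left _ _ h4)
  exact (Ideal.ne_top_iff_one _).mp (IsLocalRing.maximalIdeal.isMaximal A).ne_top h5

/-- `A ∩ ℚ = ℤ_(p)` -/
lemma mem_Rp_of_mem (hp : p.Prime) (hA : A.LiesOverPrime p) {r : ℚ}
    (hr : algebraMap ℚ Om r ∈ A) : r ∈ Rp p := by
  rw [mem_Rp_iff]
  by_contra hne
  have hpd : p ∣ r.den := by
    by_contra h
    exact hne ((Nat.coprime_comm.mp ((Nat.Prime.coprime_iff_not_dvd hp).mpr h)))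
  have hnum : IsCoprime r.num (p : ℤ) := by
    have h1 := r.reduced
    have h2 : IsCoprime r.num (r.den : ℤ) := by
      rw [Int.isCoprime_iff_gcd_eq_one]
      exact h1
    exact h2.of_isCoprime_of_dvd_right (by exact_mod_cast hpd)
  obtain ⟨d, hd⟩ := hpd
  have h1 : algebraMap ℚ Om r * (r.den : Om) = (r.num : Om) := by
    have h2 : (algebraMap ℚ Om) (r * r.den) = (algebraMap ℚ Om) r.num := by
      rw [Rat.mul_den_eq_num]
    rwa [map_mul, map_natCast, map_intCast] at h2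
  have h3 : (p : Om)⁻¹ ∈ A := by
    have h4 : (p : Om)⁻¹ = algebraMap ℚ Om r * (d : Om) * ((r.num : Om))⁻¹ := by
      have hn0 : (r.num : Om) ≠ 0 := by
        rw [Int.cast_ne_zero]
        rintro h0
        rw [h0] at hnum
        have h5 : IsUnit (p : ℤ) := isCoprime_zero_left.mp hnum
        rw [Int.isUnit_iff_natAbs_eq] at h5
        simp at h5
        exact hp.one_lt.ne' h5
      have hp0 : (p : Om) ≠ 0 := by exact_mod_cast hp.ne_zero
      field_simp
      rw [← h1, hd]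
      push_cast
      ring
    rw [h4]
    exact A.mul_mem _ _ (A.mul_mem _ _ hr (natCast_mem A d)) (inv_intCast_mem hA hnum)
  obtain ⟨hpA, h4⟩ := ValuationSubring.mem_nonunits_iff_exists_mem_maximalIdeal.mp
    (natCast_mem_nonunits hA)
  apply h4
  have hp0 : (p : Om) ≠ 0 := by exact_mod_cast hp.ne_zero
  exact IsUnit.of_mul_eq_one (⟨(p : Om)⁻¹, h3⟩ : A) (Subtype.ext (mul_inv_cancel₀ hp0))

lemma algebraMap_mem_of_mem_Rp (hA : A.LiesOverPrime p) {r : ℚ} (hr : r ∈ Rp p) :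
    algebraMap ℚ Om r ∈ A := by
  have h1 : IsCoprime (r.den : ℤ) (p : ℤ) := by
    rw [Nat.isCoprime_iff_coprime]
    exact hr
  have h2 := inv_intCast_mem hA h1
  have h3 : algebraMap ℚ Om r = (r.num : Om) * ((r.den : ℤ) : Om)⁻¹ := by
    conv_lhs => rw [← Rat.num_div_den r]
    rw [map_div₀]
    simp [div_eq_mul_inv]
  rw [h3]
  exact A.mul_mem _ _ (intCast_mem A _) h2

/-- An element all of whose conjugates are in `A` is integral over `ℤ_(p)`. -/
lemma isIntegral_of_forall_mem (hp : p.Prime) (hA : A.LiesOverPrime p) {x : Om}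
    (hx : ∀ σ : GQ, σ x ∈ A) : IsIntegral (Rp p) x := by
  have hxi : IsIntegral ℚ x := Algebra.IsIntegral.isIntegral x
  set f := minpoly ℚ x with hf
  have hmon : f.Monic := minpoly.monic hxi
  have hs : (f.map (algebraMap ℚ Om)).Splits := IsAlgClosed.splits _
  have hprod := hs.eq_prod_roots_of_monic (hmon.map _)
  have hroots : ∀ r ∈ (f.map (algebraMap ℚ Om)).roots, r ∈ A := by
    intro r hr
    rw [Polynomial.mem_roots_map hmon.ne_zero] at hr
    have h1 : Polynomial.aeval r (minpoly ℚ x) = 0 := hr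
    obtain ⟨σ, hσ⟩ : ∃ σ : GQ, σ x = r := by
      have h2 : IsConjRoot ℚ x r := (isConjRoot_iff_aeval_eq_zero hxi).mpr h1
      obtain ⟨σ, hσ⟩ := h2.exists_algEquiv
      refine ⟨σ⁻¹, ?_⟩
      rw [← hσ]
      exact AlgEquiv.symm_apply_apply σ r
    rw [← hσ]
    exact hx σ
  have hlift : f.map (algebraMap ℚ Om) ∈ Polynomial.lifts A.subtype := by
    rw [hprod]
    apply Subsemiring.multiset_prod_mem
    intro q hq
    obtain ⟨r, hr, rfl⟩ := Multiset.mem_map.mp hq
    rw [Polynomial.lifts_iff_coeff_lifts]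
    intro n
    refine ⟨(Polynomial.X - Polynomial.C (⟨r, hroots r hr⟩ : A)).coeff n, ?_⟩
    rw [← Polynomial.coeff_map]
    simp
  have hcoef : ∀ n, f.coeff n ∈ Rp p := by
    intro n
    apply mem_Rp_of_mem hp hA
    rw [← Polynomial.coeff_map]
    rw [Polynomial.lifts_iff_coeff_lifts] at hlift
    obtain ⟨a, ha⟩ := hlift n
    rw [← ha]
    exact a.2
  have hlift2 : f ∈ Polynomial.lifts (algebraMap (Rp p) ℚ) := by
    rw [Polynomial.lifts_iff_coeff_lifts]
    intro n
    exact ⟨⟨_, hcoef n⟩, rfl⟩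
  obtain ⟨g, hg, -, hgm⟩ := Polynomial.lifts_and_degree_eq_and_monic hlift2 hmon
  refine ⟨g, hgm, ?_⟩
  have h3 : (algebraMap (Rp p) Om) = (algebraMap ℚ Om).comp (algebraMap (Rp p) ℚ) := rfl
  rw [h3, ← Polynomial.eval₂_map, hg]
  exact minpoly.aeval ℚ x

end Fermat.Agent.LatticeFlat
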